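import Fermat.Agent.S19.ND.Export
import Fermat.Agent.S19.W.Recip
import Fermat.Agent.S19.W.Weil
import Fermat.Agent.S17.FF.Modular
import Fermat.Agent.GR.S.Bridge

/-!
# S19-ND: non-degeneracy of the Weil pairing `W.weil n` on `J₀(N)(ℚ̄)[n]`
-/

set_option autoImplicit false
set_option linter.unusedSectionVars false

noncomputable section

namespace Fermat.Agent.S19.ND

open AlgebraicCurve ModularCurve Fermat.Agent.GR Fermat.Agent.S17.FF Fermat.Agent.S17.DIV

/-- Weil reciprocity (S19-W), in the form used by S19-ND. -/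
theorem weilRec (K F : Type*) [Field K] [Field F] [Algebra K F] [IsAlgClosed K] [CharZero K]
    [IsFF K F] : WeilRec K F := by
  intro f g hf hg h
  refine W.weil_reciprocity hf hg fun P => ?_
  by_contra hcon
  rw [not_or] at hcon
  have h1 : P ∈ (divf (K := K) f).support := by
    rw [Finsupp.mem_support_iff, divf_apply]; exact hcon.1
  have h2 : P ∈ (divf (K := K) g).support := by
    rw [Finsupp.mem_support_iff, divf_apply]; exact hcon.2
  exact Finset.disjoint_left.1 h h1 h2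

/-- **(ND)** in the vocabulary of S19-W, on Kummer pairs over `ℚ̄`. -/
theorem exists_ePair_ne_one {N : ℕ} [NeZero N] {n : ℕ} (hn : n ≠ 0)
    {u : FF (AlgebraicClosure ℚ) N}
    {D : Divisor (AlgebraicClosure ℚ) (FF (AlgebraicClosure ℚ) N)} (hu : W.IsKum n u D)
    (hnt : ¬ ∃ z : FF (AlgebraicClosure ℚ) N, u = z ^ n)
    (T : Finset (Place (AlgebraicClosure ℚ) (FF (AlgebraicClosure ℚ) N))) :
    ∃ (u' : FF (AlgebraicClosure ℚ) N)
      (D' : Divisor (AlgebraicClosure ℚ) (FF (AlgebraicClosure ℚ) N)), W.IsKum n u' D' ∧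
      W.DisjD D D' ∧ (∀ P ∈ T, D' P = 0) ∧ W.ePair u D u' D' ≠ 1 := by
  obtain ⟨u', D', h1, h2, h3, h4, h5⟩ :=
    exists_pairing_ne_Qbar (weilRec ℂ (FF ℂ N)) (Nat.pos_of_ne_zero hn) hu.1 hu.2 hnt T
  refine ⟨u', D', ⟨h1, h2⟩, fun P => ?_, fun P hP => ?_, fun h => h5 ?_⟩
  · by_contra hcon
    rw [not_or] at hcon
    exact Finset.disjoint_left.1 h4 (Finsupp.mem_support_iff.2 hcon.2)
      (Finsupp.mem_support_iff.2 hcon.1)
  · by_contra hcon
    exact Finset.disjoint_left.1 h3 (Finsupp.mem_support_iff.2 hcon) hP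
  · have hne : evalD u' D ≠ 0 := by
      apply evalD_ne_zero h1
      rw [unitOn_iff_disjoint, h2]
      exact Disjoint.mono_left Finsupp.support_smul h4
    exact (div_eq_one_iff_eq hne).1 h

/-- non-degeneracy of the Weil pairing on the classes, for the field `FF ℚ̄ N`. -/
theorem weil_nondeg_FF {N : ℕ} [NeZero N] {n : ℕ} (hn : n ≠ 0)
    (x : Pic0 (AlgebraicClosure ℚ) (FF (AlgebraicClosure ℚ) N)) (hx : n • x = 0)
    (h : ∀ y : Pic0 (AlgebraicClosure ℚ) (FF (AlgebraicClosure ℚ) N), n • y = 0 →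
      W.weil n x y = 1) : x = 0 := by
  obtain ⟨oo⟩ : Nonempty (Place (AlgebraicClosure ℚ) (FF (AlgebraicClosure ℚ) N)) :=
    RiemannCor_nonempty_place
  obtain ⟨u, D, hr, -⟩ := W.exists_rep hx ∅
  by_contra hx0
  have hnt : ¬ ∃ z : FF (AlgebraicClosure ℚ) N, u = z ^ n := by
    rintro ⟨z, rfl⟩
    apply hx0
    have hz : z ≠ 0 := fun hz => hr.kum.1 (by rw [hz, zero_pow hn])
    have hD : D = divf (K := AlgebraicClosure ℚ) z :=
      W.IsKum.divisor_unique hn hr.kum (W.isKum_pow n hz)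
    rw [← hr.cls_eq oo, hD, cls_divf]
  obtain ⟨u', D', h1, h2, -, h4⟩ := exists_ePair_ne_one hn hr.kum hnt ∅
  have hr' : W.IsRep n (cls oo D') u' D' := W.isRep_of_cls hn h1 oo rfl
  exact h4 ((W.weil_eq hn hr hr' h2).symm.trans (h _ hr'.nsmul_eq_zero))

/-- **non-degeneracy of the Weil pairing on `J₀(N)(ℚ̄)[n]`.** -/
theorem weil_nondeg (N : ℕ) [NeZero N] {n : ℕ} (hn : n ≠ 0) (x : JZero N) (hx : n • x = 0)
    (h : ∀ y : JZero N, n • y = 0 → W.weil n x y = 1) : x = 0 := by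
  have key : ∀ (F : IntermediateField (AlgebraicClosure ℚ) (LaurentSeries (AlgebraicClosure ℚ)))
      (_ : F = FF (AlgebraicClosure ℚ) N) [IsFF (AlgebraicClosure ℚ) F]
      (x : Pic0 (AlgebraicClosure ℚ) F), n • x = 0 →
      (∀ y : Pic0 (AlgebraicClosure ℚ) F, n • y = 0 → W.weil n x y = 1) → x = 0 := by
    rintro F rfl _ x hx h
    exact weil_nondeg_FF hn x hx h
  exact key _ (Fermat.Agent.GR.S.bar_eq_FF N) x hx h

end Fermat.Agent.S19.ND
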