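import Fermat.Agent.S19.ND.Eval
import Fermat.Agent.S17.DIV.Up
import Fermat.Agent.S17.DIV.Gal

/-!
# S19-ND: base change `K → Ω` of divisors, values, `evalD`
-/

set_option autoImplicit false
set_option linter.unusedSectionVars false

noncomputable section

namespace Fermat.Agent.S19.ND

open AlgebraicCurve ModularCurve Fermat.Agent.GR Fermat.Agent.GR.C Fermat.Agent.S17.FF
  Fermat.Agent.S17.DIV

variable {K Ω : Type} [Field K] [Field Ω] [Algebra K Ω] [IsAlgClosed K] [CharZero K]
  [IsAlgClosed Ω] [CharZero Ω] {N : ℕ} [NeZero N]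

variable (Ω) in
/-- the base change of a divisor. -/
def upD (D : Divisor K (FF K N)) : Divisor Ω (FF Ω N) := Finsupp.mapDomain (up Ω) D

theorem upD_apply_up (D : Divisor K (FF K N)) (v : Place K (FF K N)) :
    upD Ω D (up Ω v) = D v := by
  exact Finsupp.mapDomain_apply up_injective D v

theorem mem_support_upD {D : Divisor K (FF K N)} {w : Place Ω (FF Ω N)} :
    w ∈ (upD Ω D).support ↔ ∃ v ∈ D.support, up Ω v = w := by
  classical
  unfold upD
  rw [Finsupp.mapDomain_support_of_injective up_injective D, Finset.mem_image]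

theorem upD_add (D E : Divisor K (FF K N)) : upD Ω (D + E) = upD Ω D + upD Ω E := by
  exact Finsupp.mapDomain_add

theorem upD_nsmul (m : ℕ) (D : Divisor K (FF K N)) : upD Ω (m • D) = m • upD Ω D := by
  exact Finsupp.mapDomain_smul m D

theorem not_mem_support_upD_of_isGeneric {w : Place Ω (FF Ω N)} (hw : IsGeneric K w)
    (D : Divisor K (FF K N)) : w ∉ (upD Ω D).support := by
  intro h
  obtain ⟨v, _, rfl⟩ := mem_support_upD.1 h
  exact not_isGeneric_up v hw

/-- [at `up Ω v`: `ord_up`; at the other places (`exists_eq_up`): generic, both sides are `0`.] -/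
theorem divf_bc (f : FF K N) :
    divf (K := Ω) (bc N (algebraMap K Ω) f) = upD Ω (divf (K := K) f) := by
  ext w
  rw [divf_apply]
  by_cases hw : IsGeneric K w
  · rw [hw f, Finsupp.notMem_support_iff.1 (not_mem_support_upD_of_isGeneric hw _)]
  · obtain ⟨v, rfl⟩ := exists_eq_up hw
    rw [ord_up, upD_apply_up, divf_apply]

theorem gal_smul_upD (σ : Ω ≃ₐ[K] Ω) (D : Divisor K (FF K N)) :
    S17.DIV.gal K N σ • upD Ω D = upD Ω D := by
  apply S17.DIV.smul_eq_of_support
  intro w hw
  obtain ⟨v, _, rfl⟩ := mem_support_upD.1 hw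
  exact gal_smul_up σ v

theorem unitOn_bc_upD {f : FF K N} {D : Divisor K (FF K N)} (h : UnitOn f D) :
    UnitOn (bc N (algebraMap K Ω) f) (upD Ω D) := by
  intro w hw
  obtain ⟨v, hv, rfl⟩ := mem_support_upD.1 hw
  rw [ord_up]
  exact h v hv

theorem evalD_bc_upD {f : FF K N} {D : Divisor K (FF K N)} (h : UnitOn f D) :
    evalD (bc N (algebraMap K Ω) f) (upD Ω D) = algebraMap K Ω (evalD f D) := by
  unfold evalD upD
  rw [Finsupp.prod_mapDomain_index_inj up_injective]
  show ∏ v ∈ D.support, val (up Ω v) (bc N (algebraMap K Ω) f) ^ D v =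
    algebraMap K Ω (∏ v ∈ D.support, val v f ^ D v)
  rw [map_prod]
  exact Finset.prod_congr rfl fun v hv => by rw [val_up v (h v hv).ge, map_zpow₀]

theorem disjoint_support_upD {D E : Divisor K (FF K N)} (h : Disjoint D.support E.support) :
    Disjoint (upD Ω D).support (upD Ω E).support := by
  rw [Finset.disjoint_left]
  intro w hw hw'
  obtain ⟨v, hv, rfl⟩ := mem_support_upD.1 hw
  obtain ⟨v', hv', he⟩ := mem_support_upD.1 hw'
  rw [up_injective he] at hv'
  exact Finset.disjoint_left.1 h hv hv'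

/-- an automorphism which fixes the values of the generic place `w` on `FF K N` fixes `w`.
[`place_ext`, `val_gal_smul_bc`.] -/
theorem gal_smul_eq_of_fix {w : Place Ω (FF Ω N)} (σ : Ω ≃ₐ[K] Ω)
    (hσ : ∀ f : FF K N, σ (val w (bc N (algebraMap K Ω) f)) = val w (bc N (algebraMap K Ω) f)) :
    S17.DIV.gal K N σ • w = w := by
  apply place_ext (K := K)
  intro f _ _
  rw [val_gal_smul_bc, hσ f]

end Fermat.Agent.S19.ND
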