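import Fermat.Agent.S19.ND.Defs
import Fermat.Agent.S17.FF.Moving

/-!
# S19-ND: moving a divisor off a finite set of places
-/

set_option autoImplicit false
set_option linter.unusedSectionVars false

noncomputable section

namespace Fermat.Agent.S19.ND

open AlgebraicCurve Fermat.Agent.S17.FF

variable {K F : Type*} [Field K] [Field F] [Algebra K F] [IsAlgClosed K] [CharZero K] [IsFF K F]

/-- there are infinitely many places. [for `x` transcendental the places `x = c`, `c ∈ K`, are
different: `FF.exists_val_eq` (or `S24` zeros theorem); `K` is infinite.] -/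
theorem exists_place_not_mem (T : Finset (Place K F)) : ∃ v : Place K F, v ∉ T := by
  have : Infinite (Place K F) := infinite_place
  exact Infinite.exists_notMem_finset T

/-- [`oo ∉ T`; `D = C + m • oo`, `m` large; `FF.exists_mem_LSpace_forall_ord_eq` gives `g ∈ L(D)`,
`g ≠ 0`, `ord_v g = - D v = - C v` for `v ∈ T`.] -/
theorem exists_move (C : Divisor K F) (T : Finset (Place K F)) :
    ∃ g : F, g ≠ 0 ∧ Disjoint (C + divf (K := K) g).support T := by
  classical
  obtain ⟨oo, hoo⟩ := exists_place_not_mem T
  have hdeg : Divisor.degree (C + Finsupp.single oo (cBound K F + 1 - Divisor.degree C)) =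
      cBound K F + 1 := by
    rw [map_add, degree_single']; ring
  obtain ⟨g, -, hg0, hg⟩ := exists_mem_LSpace_forall_ord_eq
    (D := C + Finsupp.single oo (cBound K F + 1 - Divisor.degree C)) hdeg.ge T
  refine ⟨g, hg0, ?_⟩
  rw [Finset.disjoint_left]
  intro v hv hvT
  apply Finsupp.mem_support_iff.1 hv
  rw [Finsupp.add_apply, divf_apply, hg v hvT, Finsupp.add_apply, Finsupp.single_apply,
    if_neg (by rintro rfl; exact hoo hvT)]
  ring

end Fermat.Agent.S19.ND
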