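import Fermat.Agent.S19.ND.Generic
import Fermat.Agent.S19.ND.Move

/-!
# S19-ND: the element `β = u(C) / W(D)`, `n C = w - R + div W`
-/

set_option autoImplicit false
set_option linter.unusedSectionVars false

noncomputable section

namespace Fermat.Agent.S19.ND

open AlgebraicCurve ModularCurve Fermat.Agent.GR Fermat.Agent.GR.C Fermat.Agent.S17.FF
  Fermat.Agent.S17.DIV

variable {K Ω : Type} [Field K] [Field Ω] [Algebra K Ω] [IsAlgClosed K] [CharZero K]
  [IsAlgClosed Ω] [CharZero Ω] {N : ℕ} [NeZero N]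

/-- the data: `u` Kummer over `K` (`div u = n D`), `R` a constant point off `supp D`, `w` a generic point,
`n C = w - R + div W` over `Ω`, `supp C` disjoint from `supp D`. -/
structure Setup (n : ℕ) (u : FF K N) (D : Divisor K (FF K N)) (R : Place K (FF K N))
    (w : Place Ω (FF Ω N)) (W : FF Ω N) (C : Divisor Ω (FF Ω N)) : Prop where
  hn : 0 < n
  u0 : u ≠ 0
  hD : divf (K := K) u = n • D
  hR : R ∉ D.support
  gen : IsGeneric K w
  W0 : W ≠ 0
  hC : Finsupp.single w 1 - Finsupp.single (up Ω R) 1 + divf (K := Ω) W = n • C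
  disj : Disjoint C.support (upD Ω D).support

theorem BetaA_divf_pow {k F : Type*} [Field k] [Field F] [Algebra k F] [IsAlgClosed k] [CharZero k]
    [IsFF k F] (f : F) (m : ℕ) : divf (K := k) (f ^ m) = m • divf (K := k) f := by
  ext v
  rw [divf_apply, Finsupp.smul_apply, divf_apply, ← zpow_natCast, v.ord_zpow, nsmul_eq_mul]

/-- [`R` from `exists_place_not_mem D.support`; `w` from `exists_generic_ndiv`; `ndiv_iff` gives
`w - up R = divf W₀ + n • E`; `exists_move E (upD Ω D).support` gives `g`; `C = E + divf g`,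
`W = W₀⁻¹ * g ^ n` (`divf_mul`, `divf_inv`, `divf` of a power).] -/
theorem exists_setup {n : ℕ} (hn : 0 < n) (hK : KFin Ω N n)
    (hInd : ∀ g : ℕ, ∃ y : Fin g → Ω, AlgebraicIndependent K y)
    (hg : 0 < genus Ω (FF Ω N)) {u : FF K N} (hu : u ≠ 0) {D : Divisor K (FF K N)}
    (hD : divf (K := K) u = n • D) :
    ∃ (R : Place K (FF K N)) (w : Place Ω (FF Ω N)) (W : FF Ω N) (C : Divisor Ω (FF Ω N)),
      Setup n u D R w W C := by
  obtain ⟨R, hR⟩ := exists_place_not_mem D.support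
  obtain ⟨w, hgen, hnd⟩ := exists_generic_ndiv hn hK hInd hg R
  obtain ⟨W₀, E, hW₀, hE⟩ := ndiv_iff.1 hnd
  obtain ⟨g, hg0, hdisj⟩ := exists_move E (upD Ω D).support
  refine ⟨R, w, W₀⁻¹ * g ^ n, E + divf (K := Ω) g, hn, hu, hD, hR, hgen,
    mul_ne_zero (inv_ne_zero hW₀) (pow_ne_zero n hg0), ?_, hdisj⟩
  rw [hE, divf_mul (inv_ne_zero hW₀) (pow_ne_zero n hg0), divf_inv, BetaA_divf_pow, smul_add]
  abel

/-- `β = u(C) / W(D)`. -/
def beta (u : FF K N) (D : Divisor K (FF K N)) (W : FF Ω N) (C : Divisor Ω (FF Ω N)) : Ω :=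
  evalD (bc N (algebraMap K Ω) u) C / evalD W (upD Ω D)

variable {n : ℕ} {u : FF K N} {D : Divisor K (FF K N)} {R : Place K (FF K N)}
  {w : Place Ω (FF Ω N)} {W : FF Ω N} {C : Divisor Ω (FF Ω N)}

/-- `bc u` is a unit on `C`. [`divf_bc`, `hD`, `upD_nsmul`, `disj`, `unitOn_iff_disjoint`.] -/
theorem Setup.unitOn_u (S : Setup n u D R w W C) : UnitOn (bc N (algebraMap K Ω) u) C := by
  rw [unitOn_iff_disjoint, divf_bc, S.hD, upD_nsmul]
  exact Disjoint.mono_left Finsupp.support_smul S.disj.symm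

/-- `W` is a unit on `upD D`. [at `v ∈ supp (upD D)`: `v ≠ w` (generic), `v ≠ up R` (`hR`, `up_injective`),
`C v = 0`; evaluate `hC` at `v`.] -/
theorem Setup.unitOn_W (S : Setup n u D R w W C) : UnitOn W (upD Ω D) := by
  classical
  intro v hv
  have hvw : v ≠ w := fun h => not_mem_support_upD_of_isGeneric S.gen D (h ▸ hv)
  have hvR : v ≠ up Ω R := by
    rintro rfl
    obtain ⟨v', hv', he⟩ := mem_support_upD.1 hv
    exact S.hR (up_injective he ▸ hv')
  have hCv : C v = 0 := by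
    by_contra h
    exact Finset.disjoint_left.1 S.disj (Finsupp.mem_support_iff.2 h) hv
  have h := DFunLike.congr_fun S.hC v
  rw [Finsupp.add_apply, Finsupp.sub_apply, Finsupp.single_apply, Finsupp.single_apply,
    if_neg (Ne.symm hvw), if_neg (Ne.symm hvR), Finsupp.smul_apply, hCv, divf_apply] at h
  simpa using h

theorem Setup.beta_ne_zero (S : Setup n u D R w W C) : beta u D W C ≠ 0 := by
  have hu0 : bc N (algebraMap K Ω) u ≠ 0 := (map_ne_zero _).2 S.u0
  exact div_ne_zero (evalD_ne_zero hu0 S.unitOn_u) (evalD_ne_zero S.W0 S.unitOn_W)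

/-- `R` is not in the support of `div u`, so `u(R) ≠ 0`. -/
theorem Setup.val_R_ne_zero (S : Setup n u D R w W C) : val R u ≠ 0 := by
  apply val_ne_zero_of_ord_eq_zero _ S.u0
  have h : divf (K := K) u R = (n • D) R := by rw [S.hD]
  rw [divf_apply, Finsupp.smul_apply, Finsupp.notMem_support_iff.1 S.hR, smul_zero] at h
  exact h

/-- `β ^ n = u(w) / u(R)`.
[`β ^ n = u(n C) / W(n D) = u(w - R + div W) / W(div u) = u(w)/u(R) * (u(div W)/W(div u))` and the last factor is `1`
by Weil reciprocity over `Ω` (the supports of `div W = n C - w + R` and `div (bc u) = n upD D` are disjoint).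
`evalD_nsmul`, `evalD_add`, `evalD_sub`, `evalD_single`, `val_up`, `divf_bc`.] -/
theorem Setup.beta_pow (hW : WeilRec Ω (FF Ω N)) (S : Setup n u D R w W C) :
    beta u D W C ^ n = val w (bc N (algebraMap K Ω) u) / algebraMap K Ω (val R u) := by
  classical
  have hu0 : bc N (algebraMap K Ω) u ≠ 0 := (map_ne_zero _).2 S.u0
  have hUdiv : divf (K := Ω) (bc N (algebraMap K Ω) u) = n • upD Ω D := by
    rw [divf_bc, S.hD, upD_nsmul]
  have hordR : R.ord u = 0 := by
    have h : divf (K := K) u R = (n • D) R := by rw [S.hD]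
    rw [divf_apply, Finsupp.smul_apply, Finsupp.notMem_support_iff.1 S.hR, smul_zero] at h
    exact h
  have huw : UnitOn (bc N (algebraMap K Ω) u) (Finsupp.single w (1 : ℤ)) :=
    unitOn_single (S.gen u) 1
  have huR : UnitOn (bc N (algebraMap K Ω) u) (Finsupp.single (up Ω R) (1 : ℤ)) :=
    unitOn_single (by rw [ord_up, hordR]) 1
  have huW : UnitOn (bc N (algebraMap K Ω) u) (divf (K := Ω) W) := by
    rw [unitOn_iff_disjoint, hUdiv]
    exact Disjoint.mono_left Finsupp.support_smul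
      ((unitOn_iff_disjoint.1 S.unitOn_W).symm)
  have hrec : evalD (bc N (algebraMap K Ω) u) (divf (K := Ω) W) =
      evalD W (divf (K := Ω) (bc N (algebraMap K Ω) u)) :=
    hW _ _ hu0 S.W0 (unitOn_iff_disjoint.1 huW)
  have hne : evalD W (upD Ω D) ≠ 0 := evalD_ne_zero S.W0 S.unitOn_W
  unfold beta
  rw [div_pow, ← evalD_nsmul, ← evalD_nsmul, ← S.hC, evalD_add hu0 (huw.sub huR) huW,
    evalD_sub hu0 huw huR, evalD_single, evalD_single, zpow_one, zpow_one, hrec, hUdiv,
    val_up R hordR.ge, mul_div_assoc, div_self, mul_one]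
  rw [evalD_nsmul]
  exact pow_ne_zero n hne

/-- [`evalD_smul`, `baseAut_gal`, `gal_smul_bc`, `gal_smul_upD`.] -/
theorem sigma_beta (σ : Ω ≃ₐ[K] Ω) (u : FF K N) (D : Divisor K (FF K N)) (W : FF Ω N)
    (C : Divisor Ω (FF Ω N)) :
    σ (beta u D W C) = beta u D (S17.DIV.gal K N σ • W) (S17.DIV.gal K N σ • C) := by
  unfold beta
  rw [map_div₀, ← baseAut_gal (N := N) σ (evalD _ C), ← baseAut_gal (N := N) σ (evalD W _),
    ← evalD_smul, ← evalD_smul, gal_smul_bc, gal_smul_upD]

end Fermat.Agent.S19.ND
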