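import Fermat.Agent.S17.DIV.Defs

/-!
# S19-ND: definitions

* `evalD f D = ∏_P f(P)^{D P}`: the value of a function on a divisor.
* `UnitOn f D`: `f` is a unit at all points of the support of `D`.
* `WeilRec K F`: Weil reciprocity (delivered by S19-W).
-/

set_option autoImplicit false
set_option linter.unusedSectionVars false

noncomputable section

namespace Fermat.Agent.S19.ND

open AlgebraicCurve Fermat.Agent.S17.FF

variable {K F : Type*} [Field K] [Field F] [Algebra K F] [IsAlgClosed K] [CharZero K] [IsFF K F]

/-- `f(D) = ∏_P f(P)^{D P}`. -/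
def evalD (f : F) (D : Divisor K F) : K := D.prod fun v m => val v f ^ m

/-- `f` is a unit at all points of `supp D`. -/
def UnitOn (f : F) (D : Divisor K F) : Prop := ∀ v ∈ D.support, v.ord f = 0

variable (K F) in
/-- Weil reciprocity. -/
def WeilRec : Prop :=
  ∀ f g : F, f ≠ 0 → g ≠ 0 → Disjoint (divf (K := K) f).support (divf (K := K) g).support →
    evalD f (divf (K := K) g) = evalD g (divf (K := K) f)

end Fermat.Agent.S19.ND
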