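import Fermat.Agent.S19.ND.Pair

/-!
# S19-ND: the abstract core of `Setup.exists_desc`
-/

set_option autoImplicit false
set_option linter.unusedSectionVars false

noncomputable section

namespace Fermat.Agent.S19.ND

open AlgebraicCurve Fermat.Agent.S17.FF

variable {K F : Type*} [Field K] [Field F] [Algebra K F] [IsAlgClosed K] [CharZero K] [IsFF K F]

theorem unitOn_of_divf_eq_nsmul {n : ℕ} {f : F} {A D : Divisor K F}
    (hf : divf (K := K) f = n • A) (h : Disjoint A.support D.support) : UnitOn f D := by
  rw [unitOn_iff_disjoint, hf]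
  exact Disjoint.mono_left Finsupp.support_smul h

/-- `div U = n D`, `div x = n A`, `div (x z ^ n) = n B`, `A` and `B` disjoint from `D`: then
`U(A) / x(D) = U(B) / (x z ^ n)(D)`. -/
theorem pairing_core (hW : WeilRec K F) {n : ℕ} (hn : 0 < n) {U x z : F} {D A B : Divisor K F}
    (hU0 : U ≠ 0) (hx0 : x ≠ 0) (hz0 : z ≠ 0) (hU : divf (K := K) U = n • D)
    (hx : divf (K := K) x = n • A) (hB : divf (K := K) (x * z ^ n) = n • B)
    (hAD : Disjoint A.support D.support) (hBD : Disjoint B.support D.support) :
    evalD U A / evalD x D = evalD U B / evalD (x * z ^ n) D := by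
  classical
  have hzdiv : A + divf (K := K) z = B := by
    apply nsmul_divisor_injective hn
    rw [← hB, divf_mul hx0 (pow_ne_zero n hz0), hx, divf_pow', smul_add]
  have hUA : UnitOn U A := unitOn_of_divf_eq_nsmul hU hAD.symm
  have hxD : UnitOn x D := unitOn_of_divf_eq_nsmul hx hAD
  have hzD : UnitOn z D := by
    rw [unitOn_iff_disjoint]
    have e : divf (K := K) z = B - A := by
      rw [← hzdiv]; abel
    rw [e]
    refine Disjoint.mono_left Finsupp.support_sub ?_
    rw [Finset.disjoint_union_left]
    exact ⟨hBD, hAD⟩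
  rw [← pairing_congr hW hU0 hx0 hz0 hU hUA hxD hzD, hzdiv]

end Fermat.Agent.S19.ND
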