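import Fermat.Agent.S19.ND.Beta
import Fermat.Agent.S19.ND.PairB
import Fermat.Agent.GR.C.Main

/-!
# S19-ND: `σ β / β` is a value of the pairing over `K`
-/

set_option autoImplicit false
set_option linter.unusedSectionVars false

noncomputable section

namespace Fermat.Agent.S19.ND

open AlgebraicCurve ModularCurve Fermat.Agent.GR Fermat.Agent.GR.C Fermat.Agent.S17.FF
  Fermat.Agent.S17.DIV

variable {K Ω : Type} [Field K] [Field Ω] [Algebra K Ω] [IsAlgClosed K] [CharZero K]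
  [IsAlgClosed Ω] [CharZero Ω] {N : ℕ} [NeZero N]

/-- descent of Kummer functions, in the language of divisors.
[`IsKummer n (x : LaurentSeries Ω)` from `hx`; `hK = ⟨S, hfin, hS⟩`; `GR.C.exists_descent hn (placeUp_finiteDimensional K N) S hfin hS`
gives `u₀` with `IsKummer n u₀` and `coeffMap u₀ = x * z ^ n`; `D₀` : `ndiv_iff`-style construction, or
`Finsupp.onFinset (divf ũ₀).support (fun v => v.ord ũ₀ / n)`.] -/
theorem exists_descent_FF {n : ℕ} (hn : 0 < n) (hK : KFin Ω N n) {x : FF Ω N} (hx0 : x ≠ 0)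
    {E : Divisor Ω (FF Ω N)} (hx : divf (K := Ω) x = n • E) :
    ∃ (u₀ : FF K N) (D₀ : Divisor K (FF K N)) (z : FF Ω N), u₀ ≠ 0 ∧ z ≠ 0 ∧
      divf (K := K) u₀ = n • D₀ ∧ bc N (algebraMap K Ω) u₀ = x * z ^ n := by
  obtain ⟨S, hfin, hS⟩ := hK
  have hxK : IsKummer (N := N) n (x : LaurentSeries Ω) := by
    refine ⟨fun h => hx0 (Subtype.ext h), x.2, fun v => ?_⟩
    have h1 : v.ord x = (n • E) v := by rw [← hx, divf_apply]
    show (n : ℤ) ∣ v.ord x
    rw [h1, Finsupp.smul_apply, nsmul_eq_mul]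
    exact dvd_mul_right _ _
  obtain ⟨u₀, hu₀, z, hz, hz0, he⟩ :=
    GR.C.exists_descent (K := K) hn (placeUp_finiteDimensional K N) S hfin hS hxK
  obtain ⟨hu0, hum, hud⟩ := hu₀
  refine ⟨⟨u₀, hum⟩, (divf (K := K) (⟨u₀, hum⟩ : FF K N)).mapRange (fun m => m / (n : ℤ))
    (Int.zero_ediv _), ⟨z, hz⟩, fun h => hu0 (congrArg Subtype.val h),
    fun h => hz0 (congrArg Subtype.val h), ?_, Subtype.ext he⟩
  refine Finsupp.ext fun v => ?_
  rw [Finsupp.smul_apply, Finsupp.mapRange_apply, divf_apply, nsmul_eq_mul,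
    Int.mul_ediv_cancel' (hud v)]

/-- the same, with `supp D₀` disjoint from a given finite set.
[`exists_move D₀ T` gives `h`; replace `(u₀, D₀, z)` by `(u₀ h ^ n, D₀ + divf h, z * bc h)`.] -/
theorem exists_descent_FF_off {n : ℕ} (hn : 0 < n) (hK : KFin Ω N n) {x : FF Ω N} (hx0 : x ≠ 0)
    {E : Divisor Ω (FF Ω N)} (hx : divf (K := Ω) x = n • E) (T : Finset (Place K (FF K N))) :
    ∃ (u₀ : FF K N) (D₀ : Divisor K (FF K N)) (z : FF Ω N), u₀ ≠ 0 ∧ z ≠ 0 ∧
      divf (K := K) u₀ = n • D₀ ∧ Disjoint D₀.support T ∧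
      bc N (algebraMap K Ω) u₀ = x * z ^ n := by
  obtain ⟨u₀, D₀, z, hu0, hz0, hdiv, hbc⟩ := exists_descent_FF (K := K) hn hK hx0 hx
  obtain ⟨h, hh0, hdisj⟩ := exists_move D₀ T
  refine ⟨u₀ * h ^ n, D₀ + divf (K := K) h, z * bc N (algebraMap K Ω) h,
    mul_ne_zero hu0 (pow_ne_zero n hh0), mul_ne_zero hz0 ((map_ne_zero _).mpr hh0), ?_, hdisj, ?_⟩
  · rw [divf_mul hu0 (pow_ne_zero n hh0), hdiv, smul_add]
    congr 1
    refine Finsupp.ext fun v => ?_
    rw [Finsupp.smul_apply, divf_apply, divf_apply, nsmul_eq_mul, ← zpow_natCast, v.ord_zpow]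
  · rw [map_mul, map_pow, hbc, mul_pow, mul_assoc]

variable {n : ℕ} {u : FF K N} {D : Divisor K (FF K N)} {R : Place K (FF K N)}
  {w : Place Ω (FF Ω N)} {W : FF Ω N} {C : Divisor Ω (FF Ω N)}

/-- [apply `g = gal K N σ` to `S.hC` (`divf_smul`, `SemilinearAut.smul_single`, `gal_smul_up`, `hσ`) and subtract `S.hC`.] -/
theorem Setup.divf_quot (S : Setup n u D R w W C) (σ : Ω ≃ₐ[K] Ω)
    (hσ : S17.DIV.gal K N σ • w = w) :
    divf (K := Ω) ((S17.DIV.gal K N σ • W) / W) = n • (S17.DIV.gal K N σ • C - C) := by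
  have hgW : S17.DIV.gal K N σ • W ≠ 0 := by
    rw [Ne, smul_eq_zero_iff']
    exact S.W0
  have h1 : S17.DIV.gal K N σ • (Finsupp.single w 1 - Finsupp.single (up Ω R) 1 + divf (K := Ω) W) =
      S17.DIV.gal K N σ • (n • C) := by rw [S.hC]
  rw [smul_add, smul_sub, SemilinearAut.smul_single, SemilinearAut.smul_single, hσ, gal_smul_up,
    ← S17.FF.divf_smul, smul_comm (S17.DIV.gal K N σ) n C] at h1
  rw [divf_div' hgW S.W0, smul_sub, ← h1, ← S.hC]
  abel

/-- `g • C` is still disjoint from `upD D`. [`gal_smul_upD`; `g` permutes the places.] -/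
theorem Setup.disj_smul (S : Setup n u D R w W C) (σ : Ω ≃ₐ[K] Ω) :
    Disjoint (S17.DIV.gal K N σ • C).support (upD Ω D).support := by
  rw [Finset.disjoint_left]
  intro v hv hv'
  rw [Finsupp.mem_support_iff, SemilinearAut.divisor_smul_apply, ← Finsupp.mem_support_iff] at hv
  rw [← gal_smul_upD σ D, Finsupp.mem_support_iff, SemilinearAut.divisor_smul_apply,
    ← Finsupp.mem_support_iff] at hv'
  exact Finset.disjoint_left.mp S.disj hv hv'

/-- [`sigma_beta`, `evalD_sub`, `evalD_div`, `field_simp`.] -/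
theorem Setup.sigma_beta_div (S : Setup n u D R w W C) (σ : Ω ≃ₐ[K] Ω) :
    σ (beta u D W C) / beta u D W C =
      evalD (bc N (algebraMap K Ω) u) (S17.DIV.gal K N σ • C - C) /
        evalD ((S17.DIV.gal K N σ • W) / W) (upD Ω D) := by
  have hu0 : bc N (algebraMap K Ω) u ≠ 0 := (map_ne_zero _).2 S.u0
  have hgW : S17.DIV.gal K N σ • W ≠ 0 := by
    rw [Ne, smul_eq_zero_iff']
    exact S.W0
  have h1 : UnitOn (bc N (algebraMap K Ω) u) (S17.DIV.gal K N σ • C) := by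
    have := S.unitOn_u.smul (S17.DIV.gal K N σ)
    rwa [gal_smul_bc] at this
  have h2 : UnitOn (S17.DIV.gal K N σ • W) (upD Ω D) := by
    have := S.unitOn_W.smul (S17.DIV.gal K N σ)
    rwa [gal_smul_upD] at this
  have h3 : evalD (bc N (algebraMap K Ω) u) C ≠ 0 := evalD_ne_zero hu0 S.unitOn_u
  have h4 : evalD W (upD Ω D) ≠ 0 := evalD_ne_zero S.W0 S.unitOn_W
  have h5 : evalD (S17.DIV.gal K N σ • W) (upD Ω D) ≠ 0 := evalD_ne_zero hgW h2
  rw [sigma_beta, evalD_sub hu0 h1 S.unitOn_u, evalD_div h2 S.unitOn_W]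
  unfold beta
  field_simp

/-- **`σ β / β` is a value of the pairing over `K`.** -/
theorem Setup.exists_desc (hW : WeilRec Ω (FF Ω N)) (hK : KFin Ω N n) (S : Setup n u D R w W C)
    (T : Finset (Place K (FF K N))) (σ : Ω ≃ₐ[K] Ω) (hσ : S17.DIV.gal K N σ • w = w) :
    ∃ (u' : FF K N) (D' : Divisor K (FF K N)), u' ≠ 0 ∧ divf (K := K) u' = n • D' ∧
      Disjoint D'.support T ∧ Disjoint D'.support D.support ∧
      σ (beta u D W C) / beta u D W C = algebraMap K Ω (evalD u D' / evalD u' D) := by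
  classical
  have hsb := S.sigma_beta_div σ
  have hx := S.divf_quot σ hσ
  have hdsm := S.disj_smul σ
  have hgW0 : S17.DIV.gal K N σ • W ≠ 0 :=
    fun h => S.W0 ((smul_eq_zero_iff' (S17.DIV.gal K N σ) W).1 h)
  have hx0 : (S17.DIV.gal K N σ • W) / W ≠ 0 := div_ne_zero hgW0 S.W0
  obtain ⟨u', D', z, hu'0, hz0, hu'D, hdisj, hbc⟩ :=
    exists_descent_FF_off S.hn hK hx0 hx (T ∪ D.support)
  have hdT : Disjoint D'.support T := hdisj.mono_right Finset.subset_union_left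
  have hdD : Disjoint D'.support D.support := hdisj.mono_right Finset.subset_union_right
  refine ⟨u', D', hu'0, hu'D, hdT, hdD, ?_⟩
  have hU0 : bc N (algebraMap K Ω) u ≠ 0 := by
    rw [Ne, map_eq_zero]; exact S.u0
  have hUdiv : divf (K := Ω) (bc N (algebraMap K Ω) u) = n • upD Ω D := by
    rw [divf_bc, S.hD, upD_nsmul]
  have hB : divf (K := Ω) ((S17.DIV.gal K N σ • W) / W * z ^ n) = n • upD Ω D' := by
    rw [← hbc, divf_bc, hu'D, upD_nsmul]
  have hAD : Disjoint (S17.DIV.gal K N σ • C - C).support (upD Ω D).support := by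
    refine Disjoint.mono_left Finsupp.support_sub ?_
    rw [Finset.disjoint_union_left]
    exact ⟨hdsm, S.disj⟩
  have hu'D' : UnitOn u' D := unitOn_of_divf_eq_nsmul hu'D hdD
  have huD' : UnitOn u D' := unitOn_of_divf_eq_nsmul S.hD hdD.symm
  rw [hsb, pairing_core hW S.hn hU0 hx0 hz0 hUdiv hx hB hAD (disjoint_support_upD hdD), ← hbc,
    evalD_bc_upD huD', evalD_bc_upD hu'D', map_div₀]

end Fermat.Agent.S19.ND
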