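import Fermat.Agent.S19.ND.Defs
import Fermat.Agent.S17.FF.Semi
import Fermat.Agent.S19.W.Defs

/-!
# S19-ND: formal properties of `evalD`
-/

set_option autoImplicit false
set_option linter.unusedSectionVars false

noncomputable section

namespace Fermat.Agent.S19.ND

open AlgebraicCurve Fermat.Agent.S17.FF

variable {K F : Type*} [Field K] [Field F] [Algebra K F] [IsAlgClosed K] [CharZero K] [IsFF K F]

theorem Eval_disj {f : F} (hf0 : f ≠ 0) {D : Divisor K F} (h : UnitOn f D) : W.Disj f D :=
  ⟨hf0, fun P hP => h P (Finsupp.mem_support_iff.2 hP)⟩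

theorem Eval_evalD_def (f : F) (D : Divisor K F) :
    evalD f D = ∏ P ∈ D.support, val P f ^ D P := rfl

theorem Eval_val_zero (v : Place K F) : val v (0 : F) = 0 := by
  have := val_algebraMap v (0 : K)
  rwa [map_zero] at this

theorem Eval_val_inv {v : Place K F} {f : F} (h : v.ord f = 0) : val v f⁻¹ = (val v f)⁻¹ := by
  by_cases hf : f = 0
  · rw [hf, inv_zero, Eval_val_zero, inv_zero]
  · exact W.val_inv hf h

theorem val_ne_zero_of_ord_eq_zero {v : Place K F} {f : F} (h : v.ord f = 0) (hf : f ≠ 0) :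
    val v f ≠ 0 := by
  exact W.val_ne_zero_of_ord_eq_zero hf h

theorem UnitOn.add {f : F} {D E : Divisor K F} (hD : UnitOn f D) (hE : UnitOn f E) :
    UnitOn f (D + E) := by
  classical
  intro v hv
  rcases Finset.mem_union.1 (Finsupp.support_add hv) with h | h
  · exact hD v h
  · exact hE v h

theorem UnitOn.neg {f : F} {D : Divisor K F} (hD : UnitOn f D) : UnitOn f (-D) := by
  intro v hv
  rw [Finsupp.support_neg] at hv
  exact hD v hv

theorem UnitOn.sub {f : F} {D E : Divisor K F} (hD : UnitOn f D) (hE : UnitOn f E) :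
    UnitOn f (D - E) := by
  rw [sub_eq_add_neg]
  exact hD.add hE.neg

theorem UnitOn.nsmul {f : F} {D : Divisor K F} (hD : UnitOn f D) (m : ℕ) : UnitOn f (m • D) := by
  intro v hv
  exact hD v (Finsupp.support_smul hv)

theorem UnitOn.mul {f g : F} {D : Divisor K F} (hf0 : f ≠ 0) (hg0 : g ≠ 0) (hf : UnitOn f D)
    (hg : UnitOn g D) : UnitOn (f * g) D := by
  intro v hv
  rw [v.ord_mul hf0 hg0, hf v hv, hg v hv, add_zero]

theorem UnitOn.inv {f : F} {D : Divisor K F} (hf : UnitOn f D) : UnitOn f⁻¹ D := by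
  intro v hv
  rw [v.ord_inv, hf v hv, neg_zero]

theorem UnitOn.pow {f : F} {D : Divisor K F} (hf : UnitOn f D) (m : ℕ) : UnitOn (f ^ m) D := by
  intro v hv
  rw [← zpow_natCast, v.ord_zpow, hf v hv, mul_zero]

theorem unitOn_single {f : F} {v : Place K F} (h : v.ord f = 0) (m : ℤ) :
    UnitOn f (Finsupp.single v m) := by
  intro v' hv'
  have h1 := Finset.mem_singleton.1 (Finsupp.support_single_subset hv')
  rw [h1]
  exact h

/-- `f` is a unit on `D` iff the supports of `div f` and `D` are disjoint. -/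
theorem unitOn_iff_disjoint {f : F} {D : Divisor K F} :
    UnitOn f D ↔ Disjoint (divf (K := K) f).support D.support := by
  rw [Finset.disjoint_right]
  constructor
  · intro h v hv
    rw [Finsupp.notMem_support_iff, divf_apply]
    exact h v hv
  · intro h v hv
    have := h hv
    rwa [Finsupp.notMem_support_iff, divf_apply] at this

theorem evalD_zero (f : F) : evalD f (0 : Divisor K F) = 1 := by
  exact W.evalD_zero f

theorem evalD_single (f : F) (v : Place K F) (m : ℤ) :
    evalD f (Finsupp.single v m) = val v f ^ m := by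
  exact W.evalD_single f v m

theorem evalD_ne_zero {f : F} (hf0 : f ≠ 0) {D : Divisor K F} (hD : UnitOn f D) :
    evalD f D ≠ 0 := by
  exact W.evalD_ne_zero (Eval_disj hf0 hD)

theorem evalD_add {f : F} (hf0 : f ≠ 0) {D E : Divisor K F} (hD : UnitOn f D) (hE : UnitOn f E) :
    evalD f (D + E) = evalD f D * evalD f E := by
  exact W.evalD_add (Eval_disj hf0 hD) (Eval_disj hf0 hE)

theorem evalD_neg (f : F) (D : Divisor K F) : evalD f (-D) = (evalD f D)⁻¹ := by
  exact W.evalD_neg f D

theorem evalD_sub {f : F} (hf0 : f ≠ 0) {D E : Divisor K F} (hD : UnitOn f D) (hE : UnitOn f E) :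
    evalD f (D - E) = evalD f D / evalD f E := by
  exact W.evalD_sub (Eval_disj hf0 hD) (Eval_disj hf0 hE)

theorem evalD_nsmul (f : F) (D : Divisor K F) (m : ℕ) : evalD f (m • D) = evalD f D ^ m := by
  exact W.evalD_nsmul f D m

theorem evalD_mul {f g : F} {D : Divisor K F} (hf : UnitOn f D) (hg : UnitOn g D) :
    evalD (f * g) D = evalD f D * evalD g D := by
  rw [Eval_evalD_def, Eval_evalD_def, Eval_evalD_def, ← Finset.prod_mul_distrib]
  refine Finset.prod_congr rfl fun P hP => ?_
  rw [val_mul P (hf P hP).ge (hg P hP).ge, mul_zpow]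

theorem evalD_inv {f : F} {D : Divisor K F} (hf : UnitOn f D) :
    evalD f⁻¹ D = (evalD f D)⁻¹ := by
  rw [Eval_evalD_def, Eval_evalD_def, ← Finset.prod_inv_distrib]
  refine Finset.prod_congr rfl fun P hP => ?_
  rw [Eval_val_inv (hf P hP), inv_zpow]

theorem evalD_div {f g : F} {D : Divisor K F} (hf : UnitOn f D) (hg : UnitOn g D) :
    evalD (f / g) D = evalD f D / evalD g D := by
  rw [div_eq_mul_inv, evalD_mul hf hg.inv, evalD_inv hg, div_eq_mul_inv]

theorem evalD_pow {f : F} {D : Divisor K F} (hf : UnitOn f D) (m : ℕ) :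
    evalD (f ^ m) D = evalD f D ^ m := by
  rw [Eval_evalD_def, Eval_evalD_def, ← Finset.prod_pow]
  refine Finset.prod_congr rfl fun P hP => ?_
  rw [W.val_pow (hf P hP).ge, ← zpow_natCast, ← zpow_natCast, ← zpow_mul, ← zpow_mul, mul_comm]

/-- semilinear automorphisms. -/
theorem evalD_smul (g : SemilinearAut K F) (f : F) (D : Divisor K F) :
    evalD (g • f) (g • D) = SemilinearAut.baseAut g (evalD f D) := by
  exact W.evalD_smul g f D

theorem UnitOn.smul (g : SemilinearAut K F) {f : F} {D : Divisor K F} (h : UnitOn f D) :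
    UnitOn (g • f) (g • D) := by
  intro P hP
  rw [Finsupp.mem_support_iff, SemilinearAut.divisor_smul_apply] at hP
  have := h _ (Finsupp.mem_support_iff.2 hP)
  rwa [ord_smul_eq, inv_inv] at this

end Fermat.Agent.S19.ND
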