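import Fermat.Agent.S19.ND.Main
import Fermat.Agent.S17.DIV.KFinC
import Fermat.Agent.S17.DIV.Indep

/-!
# S19-ND: export over `ℚ̄`
-/

set_option autoImplicit false
set_option linter.unusedSectionVars false

noncomputable section

namespace Fermat.Agent.S19.ND

open AlgebraicCurve ModularCurve Fermat.Agent.GR Fermat.Agent.S17.FF Fermat.Agent.S17.DIV

/-- **(ND) over `ℚ̄`**: a Kummer function `u` (`div u = n D`) which is not an `n`-th power pairs non trivially
with some Kummer function `u'` (`div u' = n D'`, `supp D'` disjoint from `supp D` and from `T`). -/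
theorem exists_pairing_ne_Qbar {N : ℕ} [NeZero N] (hW : WeilRec ℂ (FF ℂ N)) {n : ℕ} (hn : 0 < n)
    {u : FF (AlgebraicClosure ℚ) N} (hu : u ≠ 0)
    {D : Divisor (AlgebraicClosure ℚ) (FF (AlgebraicClosure ℚ) N)}
    (hD : divf (K := AlgebraicClosure ℚ) u = n • D)
    (hnt : ¬ ∃ z : FF (AlgebraicClosure ℚ) N, u = z ^ n)
    (T : Finset (Place (AlgebraicClosure ℚ) (FF (AlgebraicClosure ℚ) N))) :
    ∃ (u' : FF (AlgebraicClosure ℚ) N)
      (D' : Divisor (AlgebraicClosure ℚ) (FF (AlgebraicClosure ℚ) N)), u' ≠ 0 ∧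
      divf (K := AlgebraicClosure ℚ) u' = n • D' ∧
      Disjoint D'.support T ∧ Disjoint D'.support D.support ∧ evalD u D' ≠ evalD u' D := by
  let ι : AlgebraicClosure ℚ →+* ℂ :=
    (IsAlgClosed.lift (R := ℚ) (S := AlgebraicClosure ℚ) (M := ℂ) : AlgebraicClosure ℚ →ₐ[ℚ] ℂ)
  letI : Algebra (AlgebraicClosure ℚ) ℂ := ι.toAlgebra
  exact exists_pairing_ne ℂ hW hn (kfin_complex N hn)
    (fun g => exists_algebraicIndependent_complex (AlgebraicClosure ℚ) g) hu hD hnt T

end Fermat.Agent.S19.ND
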