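import Fermat.Agent.Lib.AutExt

/-!
# S19-ND: an `n`-th root which is fixed by `Aut(Ω/k')` lies in `k'`
-/

set_option autoImplicit false

namespace Fermat.Agent.S19.ND

/-- [`A = k'(β)` is a finite Galois extension of `k'` (characteristic `0`; `Ω ⊇ K` contains the
`n`-th roots of unity, so `A` is normal: splitting field of `X ^ n - β ^ n`; or take for `A` the normal closure /
the relative algebraic closure of `k'` in `Ω`); `β ∉ k'` gives `τ : A ≃ₐ[k'] A` with `τ β ≠ β`
(`IsGalois.mem_bot_iff_fixed` / `InfiniteGalois`); extend `τ` to `Ω` by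
`Lib.AutExt.exists_algEquiv_extending` (with base field `k'`), restrict scalars to `K`.] -/
theorem exists_aut_ne {K Ω : Type} [Field K] [Field Ω] [Algebra K Ω] [IsAlgClosed Ω] [CharZero Ω]
    (k' : IntermediateField K Ω) {β : Ω} {n : ℕ} (hn : 0 < n) (hβ : β ^ n ∈ k') (hβ' : β ∉ k') :
    ∃ σ : Ω ≃ₐ[K] Ω, (∀ a ∈ k', σ a = a) ∧ σ β ≠ β := by
  classical
  let A : IntermediateField k' Ω := algebraicClosure k' Ω
  have hchar : CharZero k' := 
    ((algebraMap k' Ω).charZero_iff (algebraMap k' Ω).injective).2 inferInstance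
  have hnorm : Normal k' A := IsAlgClosure.normal k' A
  have hgal : IsGalois k' A := { }
  have hβA : β ∈ A :=
    mem_algebraicClosure_iff.mpr (IsAlgebraic.of_pow hn (isAlgebraic_algebraMap (⟨β ^ n, hβ⟩ : k')))
  let b : A := ⟨β, hβA⟩
  have hb : b ∉ Set.range (algebraMap k' A) := by
    rintro ⟨c, hc⟩
    apply hβ'
    have h1 : ((algebraMap k' A c : A) : Ω) = β := congrArg Subtype.val hc
    rw [← h1]
    exact c.2
  rw [InfiniteGalois.mem_range_algebraMap_iff_fixed] at hb
  push Not at hb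
  obtain ⟨τ, hτ⟩ := hb
  obtain ⟨σ, hσ⟩ := Lib.AutExt.exists_algEquiv_extending (k := k') A τ
  refine ⟨σ.restrictScalars K, fun a ha => σ.commutes ⟨a, ha⟩, ?_⟩
  intro h
  apply hτ
  apply Subtype.ext
  rw [← hσ b]
  exact h

end Fermat.Agent.S19.ND
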