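import Fermat.Agent.S19.ND.Base
import Fermat.Agent.S17.DIV.Const

/-!
# S19-ND: a generic point `w` with `w - R ∈ n Div + Princ`
-/

set_option autoImplicit false
set_option linter.unusedSectionVars false

noncomputable section

namespace Fermat.Agent.S19.ND

open AlgebraicCurve ModularCurve Fermat.Agent.GR Fermat.Agent.GR.C Fermat.Agent.S17.FF
  Fermat.Agent.S17.DIV

variable {K Ω : Type} [Field K] [Field Ω] [Algebra K Ω] [IsAlgClosed K] [CharZero K]
  [IsAlgClosed Ω] [CharZero Ω] {N : ℕ} [NeZero N]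

/-- generic over a bigger field `⟹` generic. [`bc_bc`, `IsScalarTower.algebraMap_eq`.] -/
theorem isGeneric_of_clo {S : Set Ω} {w : Place Ω (FF Ω N)} (h : IsGeneric (clo K S) w) :
    IsGeneric K w := by
  intro f
  have h1 := h (bc N (algebraMap K (clo K S)) f)
  rw [bc_bc, ← IsScalarTower.algebraMap_eq] at h1
  exact h1

/-- [Same proof as `S17.DIV.ndiv_up_sub` (read DIV/Const.lean): `S, w` from `exists_moving`, `L = clo K S`.
For `m` large there are `t₁, t₂ ∈ FF K N` with `poleDiv t₁ = m ∞`, `poleDiv t₂ = (m+1) ∞`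
(`exists_poleDiv_eq` over `K`).  `ndiv_poleDiv` for the pair `(L, Ω)` gives
`m up ∞ - m w ∈ NDiv`, `(m+1) up ∞ - (m+1) w ∈ NDiv`; subtract: `up ∞ - w ∈ NDiv`; add
`ndiv_up_sub … R`.] -/
theorem exists_generic_ndiv {n : ℕ} (hn : 0 < n) (hK : KFin Ω N n)
    (hInd : ∀ g : ℕ, ∃ y : Fin g → Ω, AlgebraicIndependent K y)
    (hg : 0 < genus Ω (FF Ω N)) (R : Place K (FF K N)) :
    ∃ w : Place Ω (FF Ω N), IsGeneric K w ∧
      NDiv n (Finsupp.single w 1 - Finsupp.single (up Ω R) 1 : Divisor Ω (FF Ω N)) := by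
  obtain ⟨S, w, hw, hmov⟩ := exists_moving (K := K) hn hK hg (hInd _)
  refine ⟨w, isGeneric_of_clo hw, ?_⟩
  set m : ℕ := (cBound K (FF K N) + 1).toNat with hm
  have hm' : cBound K (FF K N) + 1 ≤ (m : ℤ) := Int.self_le_toNat _
  have h2 := Const_ndiv_mapDomain (K := K) hw hmov
    (D := Finsupp.single (qPlace K N) ((m : ℤ) + 1)) ?_ ?_ ?_
  have h3 := Const_ndiv_mapDomain (K := K) hw hmov
    (D := Finsupp.single (qPlace K N) ((m : ℤ) + 1 + 1)) ?_ ?_ ?_
  · rw [Finsupp.mapDomain_single, degree_single'] at h2 h3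
    have h4 := ((h3.sub h2).neg).sub (ndiv_up_sub (K := K) hn hK hInd R)
    have e : (-(Finsupp.single (up Ω (qPlace K N)) ((m : ℤ) + 1 + 1) -
        ((m : ℤ) + 1 + 1) • Finsupp.single w 1 -
        (Finsupp.single (up Ω (qPlace K N)) ((m : ℤ) + 1) -
          ((m : ℤ) + 1) • Finsupp.single w 1)) -
        (Finsupp.single (up Ω R) 1 - Finsupp.single (up Ω (qPlace K N)) 1) :
          Divisor Ω (FF Ω N)) =
        Finsupp.single w 1 - Finsupp.single (up Ω R) 1 := by
      rw [Finsupp.single_add _ ((m : ℤ) + 1) 1, add_smul ((m : ℤ) + 1) 1, one_smul]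
      abel
    rwa [e] at h4
  · exact Finsupp.single_nonneg.2 (by positivity)
  · rw [degree_single']; omega
  · intro h0
    have := congrArg Divisor.degree h0
    rw [degree_single', map_zero] at this
    omega
  · exact Finsupp.single_nonneg.2 (by positivity)
  · rw [degree_single']; omega
  · intro h0
    have := congrArg Divisor.degree h0
    rw [degree_single', map_zero] at this
    omega

theorem GenericB_divf_pow {K F : Type*} [Field K] [Field F] [Algebra K F] [IsAlgClosed K]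
    [CharZero K] [IsFF K F] (f : F) (m : ℕ) : divf (K := K) (f ^ m) = m • divf (K := K) f := by
  ext v
  rw [divf_apply, Finsupp.smul_apply, divf_apply, ← zpow_natCast, v.ord_zpow, nsmul_eq_mul]

/-- genus `0`: every Kummer function is an `n`-th power.
[`upD Ω D` has degree `0` (`degree_mapDomain_up`, `n * deg D = deg (divf u) = 0`), so it is principal over `Ω`: as in the proof of
`S17.DIV.ndiv_of_genus_eq_zero` there is `h ≠ 0` with `divf h + upD Ω D = 0`; `bc u * h ^ n` has divisor `0` (`divf_bc`), so it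
is a constant `c` (`FF.exists_const_of_ord_nonneg`), `c = d ^ n`; so `KummerEquiv N n 1 (bc u)` over `Ω`;
descend by `GR.C.kummerEquiv_of_coeffMap_hom` (`coeffMap 1 = 1`).] -/
theorem exists_pow_eq_of_genus_eq_zero {n : ℕ} (hn : 0 < n) (hg : genus Ω (FF Ω N) = 0)
    {u : FF K N} (hu : u ≠ 0) {D : Divisor K (FF K N)} (hD : divf (K := K) u = n • D) :
    ∃ z : FF K N, u = z ^ n := by
  -- degree of `D` is zero
  have hdeg : Divisor.degree D = 0 := by
    have h1 := degree_divf (K := K) u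
    rw [hD, map_nsmul, nsmul_eq_mul] at h1
    rcases mul_eq_zero.1 h1 with h | h
    · exact absurd (by exact_mod_cast h) hn.ne'
    · exact h
  have hdegΩ : Divisor.degree (upD Ω D) = 0 := by
    rw [upD, degree_mapDomain_up, hdeg]
  -- `upD Ω D` is principal
  have h1 := riemann_le (upD Ω D)
  rw [hdegΩ, hg] at h1
  have h2 : 0 < ell (upD Ω D) := by
    have : (0 : ℤ) < ell (upD Ω D) := by
      simp only [Nat.cast_zero, sub_zero, zero_add] at h1
      omega
    exact_mod_cast this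
  obtain ⟨h, hh, hh0⟩ := ell_pos_iff.1 h2
  have h3 : ∀ v : Place Ω (FF Ω N), -(upD Ω D) v ≤ v.ord h := by
    rcases mem_LSpace.1 hh with h' | h'
    · exact absurd h' hh0
    · exact h'
  have h4 : divf (K := Ω) h + upD Ω D = 0 := by
    apply eq_zero_of_nonneg_of_degree
    · intro v
      have := h3 v
      simp only [Finsupp.coe_zero, Pi.zero_apply, Finsupp.add_apply, divf_apply]
      omega
    · rw [map_add, degree_divf, hdegΩ, add_zero]
  -- `bc u * h ^ n` has divisor zero
  have hU : bc N (algebraMap K Ω) u ≠ 0 := (map_ne_zero _).mpr hu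
  have h5 : divf (K := Ω) (bc N (algebraMap K Ω) u * h ^ n) = 0 := by
    rw [divf_mul hU (pow_ne_zero n hh0), divf_bc, hD, upD_nsmul, GenericB_divf_pow, ← nsmul_add,
      add_comm, h4, nsmul_zero]
  obtain ⟨c, hc⟩ := exists_const_of_ord_nonneg (K := Ω) (f := bc N (algebraMap K Ω) u * h ^ n)
    (fun v => by rw [← divf_apply, h5]; simp)
  obtain ⟨d, hd⟩ := IsAlgClosed.exists_pow_nat_eq c hn
  have hc0 : c ≠ 0 := by
    rintro rfl
    rw [map_zero] at hc
    exact mul_ne_zero hU (pow_ne_zero n hh0) hc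
  have hd0 : d ≠ 0 := by
    rintro rfl
    rw [zero_pow hn.ne'] at hd
    exact hc0 hd.symm
  have hz0 : algebraMap Ω (FF Ω N) d * h⁻¹ ≠ 0 :=
    mul_ne_zero ((map_ne_zero _).mpr hd0) (inv_ne_zero hh0)
  have e1 : bc N (algebraMap K Ω) u = (algebraMap Ω (FF Ω N) d * h⁻¹) ^ n := by
    rw [mul_pow, ← map_pow, hd, ← hc, inv_pow, mul_assoc, mul_inv_cancel₀ (pow_ne_zero n hh0),
      mul_one]
  have hKE : KummerEquiv N n (coeffMap (algebraMap K Ω) (1 : LaurentSeries K))
      (coeffMap (algebraMap K Ω) (u : LaurentSeries K)) := by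
    refine ⟨((algebraMap Ω (FF Ω N) d * h⁻¹ : FF Ω N) : LaurentSeries Ω), Subtype.mem _, ?_, ?_⟩
    · intro h0
      exact hz0 (Subtype.ext h0)
    · rw [map_one, one_mul, ← coe_bc, e1]
      rfl
  obtain ⟨z, hz, -, e⟩ := kummerEquiv_of_coeffMap_hom (algebraMap K Ω) hn hKE
  refine ⟨⟨z, hz⟩, Subtype.ext ?_⟩
  rw [e, one_mul]
  rfl

end Fermat.Agent.S19.ND
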