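import Fermat.Agent.S19.ND.Desc
import Fermat.Agent.S19.ND.Fixed

/-!
# S19-ND: non-degeneracy of the pairing `e(u', u) = u(D') / u'(D)` on Kummer functions
-/

set_option autoImplicit false
set_option linter.unusedSectionVars false

noncomputable section

namespace Fermat.Agent.S19.ND

open AlgebraicCurve ModularCurve Fermat.Agent.GR Fermat.Agent.GR.C Fermat.Agent.S17.FF
  Fermat.Agent.S17.DIV

variable {K Ω : Type} [Field K] [Field Ω] [Algebra K Ω] [IsAlgClosed K] [CharZero K]
  [IsAlgClosed Ω] [CharZero Ω] {N : ℕ} [NeZero N]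

variable (Ω) in
/-- **(ND)** a Kummer function `u` (`div u = n D`) which is not an `n`-th power pairs non trivially with
some Kummer function `u'` (`div u' = n D'`, `supp D'` disjoint from `supp D` and from a given finite set `T`). -/
theorem exists_pairing_ne (hW : WeilRec Ω (FF Ω N)) {n : ℕ} (hn : 0 < n) (hK : KFin Ω N n)
    (hInd : ∀ g : ℕ, ∃ y : Fin g → Ω, AlgebraicIndependent K y)
    {u : FF K N} (hu : u ≠ 0) {D : Divisor K (FF K N)} (hD : divf (K := K) u = n • D)
    (hnt : ¬ ∃ z : FF K N, u = z ^ n) (T : Finset (Place K (FF K N))) :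
    ∃ (u' : FF K N) (D' : Divisor K (FF K N)), u' ≠ 0 ∧ divf (K := K) u' = n • D' ∧
      Disjoint D'.support T ∧ Disjoint D'.support D.support ∧ evalD u D' ≠ evalD u' D := by
  rcases Nat.eq_zero_or_pos (genus Ω (FF Ω N)) with hg | hg
  · exact absurd (exists_pow_eq_of_genus_eq_zero hn hg hu hD) hnt
  obtain ⟨R, w, W, C, S⟩ := exists_setup hn hK hInd hg hu hD
  by_contra hcon
  have hall : ∀ (u' : FF K N) (D' : Divisor K (FF K N)), u' ≠ 0 → divf (K := K) u' = n • D' →
      Disjoint D'.support T → Disjoint D'.support D.support → evalD u D' = evalD u' D := by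
    intro u' D' h1 h2 h3 h4
    by_contra h5
    exact hcon ⟨u', D', h1, h2, h3, h4, h5⟩
  set β : Ω := beta u D W C with hβ
  set k' : IntermediateField K Ω := (evalHom w S.gen).fieldRange with hk'
  have hmem : ∀ f : FF K N, val w (bc N (algebraMap K Ω) f) ∈ k' := fun f => ⟨f, rfl⟩
  have hpow : β ^ n ∈ k' := by
    rw [hβ, S.beta_pow hW]
    exact div_mem (hmem u) (k'.algebraMap_mem _)
  have hβk : β ∈ k' := by
    by_contra hβk
    obtain ⟨σ, hσ1, hσ2⟩ := exists_aut_ne k' hn hpow hβk
    have hσw : S17.DIV.gal K N σ • w = w := gal_smul_eq_of_fix σ fun f => hσ1 _ (hmem f)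
    obtain ⟨u', D', h1, h2, h3, h4, h5⟩ := S.exists_desc hW hK T σ hσw
    have hne : evalD u' D ≠ 0 := by
      apply evalD_ne_zero h1
      rw [unitOn_iff_disjoint, h2]
      exact Disjoint.mono_left Finsupp.support_smul h4
    rw [hall u' D' h1 h2 h3 h4, div_self hne, map_one] at h5
    exact hσ2 ((div_eq_one_iff_eq S.beta_ne_zero).mp h5)
  obtain ⟨b, hb⟩ := hβk
  have hb' : evalHom w S.gen b = β := hb
  apply hnt
  obtain ⟨c, hc⟩ := IsAlgClosed.exists_pow_nat_eq (val R u) hn
  refine ⟨algebraMap K (FF K N) c * b, ?_⟩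
  have hinj : Function.Injective (evalHom w S.gen) := (evalHom w S.gen).toRingHom.injective
  apply hinj
  have h1 := S.beta_pow hW
  rw [← hβ, ← hb'] at h1
  have hR : algebraMap K Ω (val R u) ≠ 0 := by
    simpa using S.val_R_ne_zero
  rw [eq_div_iff hR] at h1
  rw [mul_pow, map_mul, map_pow, map_pow, AlgHom.commutes, ← map_pow, hc, evalHom_apply w S.gen u,
    ← h1, mul_comm]

end Fermat.Agent.S19.ND
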