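import Fermat.Agent.S19.ND.Eval

/-!
# S19-ND: the pairing `e(x, U) = U(A) / x(D)` does not depend on the representative
-/

set_option autoImplicit false
set_option linter.unusedSectionVars false

noncomputable section

namespace Fermat.Agent.S19.ND

open AlgebraicCurve Fermat.Agent.S17.FF

variable {K F : Type*} [Field K] [Field F] [Algebra K F] [IsAlgClosed K] [CharZero K] [IsFF K F]

theorem divf_pow' (f : F) (m : ℕ) : divf (K := K) (f ^ m) = m • divf (K := K) f := by
  refine Finsupp.ext fun v => ?_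
  rw [Finsupp.smul_apply, divf_apply, divf_apply, ← zpow_natCast, v.ord_zpow, nsmul_eq_mul]

theorem divf_div' {f g : F} (hf : f ≠ 0) (hg : g ≠ 0) :
    divf (K := K) (f / g) = divf (K := K) f - divf (K := K) g := by
  rw [div_eq_mul_inv, divf_mul hf (inv_ne_zero hg), divf_inv, sub_eq_add_neg]

/-- `Div` is torsion free. -/
theorem nsmul_divisor_injective {n : ℕ} (hn : 0 < n) {D E : Divisor K F} (h : n • D = n • E) :
    D = E := by
  refine Finsupp.ext fun v => ?_
  have h1 := DFunLike.congr_fun h v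
  rw [Finsupp.smul_apply, Finsupp.smul_apply, nsmul_eq_mul, nsmul_eq_mul] at h1
  exact mul_left_cancel₀ (by exact_mod_cast hn.ne') h1

/-- `(U, D)` with `div U = n D`; replace `(x, A)` by `(x z ^ n, A + div z)`.
[`U(A + div z) = U(A) U(div z)`, `(x z^n)(D) = x(D) z(D)^n = x(D) z(n D) = x(D) z(div U)`, and `U(div z) = z(div U)` by Weil
reciprocity: `supp div z` is disjoint from `supp D ⊇ supp div U` by `hzD`.] -/
theorem pairing_congr (hW : WeilRec K F) {n : ℕ} {U x z : F} {D A : Divisor K F}
    (hU0 : U ≠ 0) (hx0 : x ≠ 0) (hz0 : z ≠ 0) (hU : divf (K := K) U = n • D)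
    (hUA : UnitOn U A) (hxD : UnitOn x D) (hzD : UnitOn z D) :
    evalD U (A + divf (K := K) z) / evalD (x * z ^ n) D = evalD U A / evalD x D := by
  have hzU : UnitOn z (divf (K := K) U) := by
    rw [hU]
    exact hzD.nsmul n
  have hdisj : Disjoint (divf (K := K) U).support (divf (K := K) z).support :=
    (unitOn_iff_disjoint.1 hzU).symm
  have hUz : UnitOn U (divf (K := K) z) := unitOn_iff_disjoint.2 hdisj
  have hw : evalD z (divf (K := K) U) ≠ 0 := evalD_ne_zero hz0 hzU
  rw [evalD_add hU0 hUA hUz, evalD_mul hxD (hzD.pow n), evalD_pow hzD, ← evalD_nsmul, ← hU,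
    hW U z hU0 hz0 hdisj, mul_div_mul_right _ _ hw]

end Fermat.Agent.S19.ND
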